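import Fermat.Agent.Newforms.Depletion

/-!
# Sieving at primes dividing the level

For primes `q ∣ N` the form `f - (f | U_q) | V_q` already has level `N q`.
-/

set_option autoImplicit false

noncomputable section

namespace Fermat.Agent.Extra.Eigen

open Fermat.Agent.Newforms ModularFormClass CongruenceSubgroup

/-- `Σ_{(n, D) = 1} a_n q^n` has level `N ∏ D` when the primes of `D` divide `N`. -/
theorem exists_sieve_bad (D : Finset ℕ) (hD : ∀ q ∈ D, q.Prime) (N : ℕ) [NeZero N]
    (hDN : ∀ q ∈ D, q ∣ N) (f : S2 N) :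
    ∃ F : S2 (N * D.prod id),
      ∀ n, qCoeff F n = if ∀ q ∈ D, ¬ q ∣ n then qCoeff f n else 0 := by
  induction D using Finset.induction with
  | empty =>
    have : NeZero (N * (∅ : Finset ℕ).prod id) := ⟨by simpa using NeZero.ne N⟩
    exact ⟨raiseLin (dvd_mul_right N _) f, fun n => by rw [coe_raiseLin]; simp⟩
  | insert q D hqD ih =>
    obtain ⟨F, hF⟩ := ih (fun r hr => hD r (Finset.mem_insert_of_mem hr))
      (fun r hr => hDN r (Finset.mem_insert_of_mem hr))
    have hq := hD q (Finset.mem_insert_self q D)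
    have hP : D.prod id ≠ 0 := Finset.prod_ne_zero_iff.2 fun r hr =>
      (hD r (Finset.mem_insert_of_mem hr)).ne_zero
    have : NeZero (N * D.prod id) := ⟨mul_ne_zero (NeZero.ne N) hP⟩
    have hlev : N * D.prod id * q = N * (insert q D).prod id := by
      rw [Finset.prod_insert hqD, id]; ring
    have : NeZero (N * (insert q D).prod id) := ⟨hlev ▸ mul_ne_zero (NeZero.ne _) hq.ne_zero⟩
    refine ⟨raiseLin ((dvd_mul_right _ q).trans hlev.dvd) F - degen q hlev.dvd
      (CuspForm.heckeULin 2 ((hDN q (Finset.mem_insert_self q D)).mul_right _) F), fun n => ?_⟩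
    rw [qCoeff_sub, qCoeff_degen, qCoeff_heckeULin, coe_raiseLin]
    simp only [Finset.forall_mem_insert]
    by_cases hn : q ∣ n
    · rw [if_pos hn, Nat.div_mul_cancel hn, sub_self, if_neg fun h => h.1 hn]
    · rw [if_neg hn, sub_zero, hF]
      simp [hn]

end Fermat.Agent.Extra.Eigen
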