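import Fermat.Agent.Extra.Eigen.Recursive
import Fermat.Agent.Extra.Eigen.SieveBad
import Fermat.Agent.MF.IntStruct.Hecke
import Fermat.Agent.S49
import Fermat.Prelude.Def_WeierstrassCurve_Mlc1RowStatement

/-!
# From modularity of exact conductor level to a lattice-realised eigensystem

Sieving the newform at the bad primes gives a form of level `N²`, `N` the squarefree conductor,
with coefficients in `ℤ`; modulo `3` they satisfy the formal recursion with character `χ₋₃`.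
-/

set_option autoImplicit false

open ModularFormClass CongruenceSubgroup EisensteinWeightOne WeierstrassCurve

noncomputable section

namespace Fermat.Agent.Extra.Eigen

/-- Coefficients prime to `N` of an eigenform with integral eigenvalues at `p ∤ N` are integers
congruent to the formal sequence with character `χ₋₃`. -/
theorem exists_int_congr {N : ℕ} [NeZero N] {f : CuspForm (Gamma0 N) 2}
    (hf : f.IsNormalizedEigenform) {c e : ℕ → ℤ}
    (hc : ∀ p : ℕ, p.Prime → ¬ p ∣ N → qCoeff f p = (c p : ℂ))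
    (he : ∀ p : ℕ, p.Prime → ¬ p ∣ N → e p = chiNegThree p) :
    ∀ n : ℕ, n ≠ 0 → n.Coprime N →
      ∃ z : ℤ, qCoeff f n = (z : ℂ) ∧ (3 : ℤ) ∣ z - ofPrimes c e n := by
  intro n
  induction n using Nat.recOnPrimeCoprime with
  | zero => exact fun h => absurd rfl h
  | prime_pow p r hp =>
    intro _ hcop
    rw [ofPrimes_prime_pow hp]
    rcases Nat.eq_zero_or_pos r with rfl | hr
    · exact ⟨1, by simp [hf.qCoeff_one], by simp [localSeq]⟩
    have hpN : ¬ p ∣ N := fun h => hp.not_dvd_one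
      ((Nat.Coprime.gcd_eq_one hcop) ▸ Nat.dvd_gcd (dvd_pow_self p hr.ne') h)
    clear hcop hr
    suffices H : ∀ k, (∃ z : ℤ, qCoeff f (p ^ k) = (z : ℂ) ∧ (3 : ℤ) ∣ z - localSeq (c p) (e p) k) ∧
        ∃ z : ℤ, qCoeff f (p ^ (k + 1)) = (z : ℂ) ∧ (3 : ℤ) ∣ z - localSeq (c p) (e p) (k + 1) from
      (H r).1
    intro k
    induction k with
    | zero =>
      exact ⟨⟨1, by simp [hf.qCoeff_one], by simp [localSeq]⟩,
        c p, by simpa using hc p hp hpN, by simp [localSeq]⟩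
    | succ k ih =>
      obtain ⟨⟨z₀, h₀, w₀, hw₀⟩, z₁, h₁, w₁, hw₁⟩ := ih
      obtain ⟨j, hj⟩ := S49.natCast_sub_chiNegThree p
      refine ⟨⟨z₁, h₁, w₁, hw₁⟩, c p * z₁ - p * z₀, ?_,
        c p * w₁ - j * z₀ - chiNegThree p * w₀, ?_⟩
      · rw [hf.qCoeff_prime_pow_of_not_dvd p k hp hpN, hc p hp hpN, h₀, h₁]
        push_cast
        rfl
      · rw [he p hp hpN] at hw₀ hw₁ ⊢
        rw [localSeq]
        linear_combination (c p) * hw₁ - z₀ * hj - chiNegThree p * hw₀
  | coprime m n hm hn hmn ihm ihn =>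
    intro _ hcop
    obtain ⟨z, hz, w, hw⟩ := ihm (by omega) hcop.coprime_mul_right
    obtain ⟨z', hz', w', hw'⟩ := ihn (by omega) hcop.coprime_mul_left
    refine ⟨z * z', by rw [hf.qCoeff_mul_of_coprime m n hmn, hz, hz', Int.cast_mul],
      z * w' + ofPrimes c e n * w, ?_⟩
    rw [ofPrimes_mul (by omega) (by omega) hmn]
    linear_combination z * hw' + ofPrimes c e n * hw

/-- A semistable model modular of exact conductor level gives a lattice-realised eigensystem with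
character `χ₋₃` congruent to it modulo `3`, of level cube-free. -/
theorem exists_latticeRealized {W : WeierstrassCurve ℤ}
    (hex : Mlc1IsModularModelOfExactConductorLevel W) :
    ∃ (M : ℕ) (_ : NeZero M) (a : ℕ → ℤ),
      CuspForm.HasIntegralBasis M ∧
      FormalHecke.IsEigensystem
        (fun ℓ => if ℓ ∣ M then 0 else ((chiNegThree ℓ : ℤ) : ℤ)) a ∧
      CuspForm.IsLatticeRealized M a ∧
      (∀ q : ℕ, q.Prime → ¬ q ^ 3 ∣ M) ∧
      ∀ ℓ : ℕ, ℓ.Prime → W.IsGoodPrimeFor ℓ → (3 : ℤ) ∣ (a ℓ - W.apOfModel ℓ) := by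
  classical
  obtain ⟨N, hN0, hsq, hN, f, hf, hfc⟩ := hex
  have : NeZero N := ⟨hN0.ne'⟩
  have hbad : ∀ p : ℕ, p.Prime → (W.IsGoodPrimeFor p ↔ ¬ p ∣ N) := fun p hp =>
    ⟨fun hg h => hg ((hN p hp).1 h), fun h hd => h ((hN p hp).2 hd)⟩
  set M := N * N.primeFactors.prod id with hMdef
  obtain ⟨F, hF⟩ : ∃ F : Newforms.S2 M, ∀ n,
      qCoeff F n = if ∀ q ∈ N.primeFactors, ¬ q ∣ n then qCoeff f n else 0 :=
    exists_sieve_bad N.primeFactors (fun q hq => Nat.prime_of_mem_primeFactors hq) N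
      (fun q hq => Nat.dvd_of_mem_primeFactors hq) f
  have hM : M = N * N := by
    rw [hMdef]
    congr 1
    exact Nat.prod_primeFactors_of_squarefree hsq
  have : NeZero M := ⟨hM ▸ mul_ne_zero hN0.ne' hN0.ne'⟩
  have hdvd : ∀ p : ℕ, p.Prime → (p ∣ M ↔ p ∣ N) := fun p hp =>
    ⟨fun h => (hp.dvd_mul.1 (hM ▸ h)).elim id id, fun h => hM ▸ h.mul_right N⟩
  set c : ℕ → ℤ := fun ℓ => if ℓ ∣ M then 0 else W.apOfModel ℓ with hc
  set e : ℕ → ℤ := fun ℓ => if ℓ ∣ M then 0 else ((chiNegThree ℓ : ℤ) : ℤ) with he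
  have hkey : ∀ n, ∃ z : ℤ, qCoeff F n = (z : ℂ) ∧ (3 : ℤ) ∣ z - ofPrimes c e n := by
    intro n
    rcases eq_or_ne n 0 with rfl | hn0
    · exact ⟨0, by rw [Newforms.qCoeff_cusp_zero, Int.cast_zero], by simp [ofPrimes]⟩
    by_cases hcop : n.Coprime N
    · have hall : ∀ q ∈ N.primeFactors, ¬ q ∣ n := fun q hq h =>
        (Nat.prime_of_mem_primeFactors hq).not_dvd_one
          (hcop.gcd_eq_one ▸ Nat.dvd_gcd h (Nat.dvd_of_mem_primeFactors hq))
      rw [hF, if_pos hall]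
      refine exists_int_congr hf (fun p hp hpN => ?_) (fun p hp hpN => ?_) n hn0 hcop
      · simp only [hc, if_neg (mt (hdvd p hp).1 hpN)]
        exact hfc p hp ((hbad p hp).2 hpN) hpN
      · simp only [he, if_neg (mt (hdvd p hp).1 hpN)]
    · obtain ⟨q, hq, hqn, hqN⟩ := Nat.Prime.not_coprime_iff_dvd.1 hcop
      have hnot : ¬ ∀ q ∈ N.primeFactors, ¬ q ∣ n := fun h =>
        h q (Nat.mem_primeFactors.2 ⟨hq, hqN, hN0.ne'⟩) hqn
      obtain ⟨r, m, hm, rfl⟩ := Nat.exists_eq_pow_mul_and_not_dvd hn0 q hq.ne_one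
      have hm0 : m ≠ 0 := fun h => hm (h ▸ dvd_zero q)
      have hqM := (hdvd q hq).2 hqN
      refine ⟨0, by rw [hF, if_neg hnot, Int.cast_zero], ?_⟩
      rw [ofPrimes_mul (pow_ne_zero r hq.ne_zero) hm0 ((hq.coprime_iff_not_dvd.2 hm).pow_left r),
        ofPrimes_prime_pow hq]
      match r with
      | 0 => exact absurd (by simpa using hqn) hm
      | 1 => simp [localSeq, hc, hqM]
      | r + 2 => simp [localSeq, hc, he, hqM]
  choose af haf hcong using hkey
  refine ⟨M, inferInstance, ofPrimes c e, MF.IntStruct.hasIntegralBasis M,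
    isEigensystem_ofPrimes c e,
    ⟨F, fun n => by rw [haf]; exact intCast_mem _ _, af, fun n => (haf n).symm, fun n => ?_⟩,
    fun q hq h => ?_, fun ℓ hℓ hgood => ?_⟩
  · have := dvd_sub (hcong n) (S49.bridgeProduct_coeff_mod_three (ofPrimes c e) n)
    rwa [sub_sub_sub_cancel_right] at this
  · have hq2 : ¬ q ^ 2 ∣ N := fun h' =>
      Nat.squarefree_iff_prime_squarefree.1 hsq q hq (by rwa [← pow_two])
    rw [hM] at h
    have hqN : q ∣ N := (hq.dvd_mul.1 ((dvd_pow_self q three_ne_zero).trans h)).elim id id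
    obtain ⟨m, rfl⟩ := hqN
    have hqm : ¬ q ∣ m := fun h' => hq2 (pow_two q ▸ mul_dvd_mul_left q h')
    rw [show q * m * (q * m) = q ^ 2 * (m * m) by ring, pow_succ] at h
    exact hqm ((hq.dvd_mul.1 (Nat.dvd_of_mul_dvd_mul_left (pow_pos hq.pos 2) h)).elim id id)
  · rw [ofPrimes_prime hℓ]
    simp only [hc, if_neg (mt (hdvd ℓ hℓ).1 ((hbad ℓ hℓ).1 hgood))]
    simp

end Fermat.Agent.Extra.Eigen
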