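import Mathlib
import Fermat.Prelude.Def_FormalHecke_Eigensystem

/-!
# Formal eigensystems from their values at the primes
-/

set_option autoImplicit false

namespace Fermat.Agent.Extra.Eigen

/-- The sequence at the powers of one prime: `1, c, …`, with characteristic `X² - c X + e`. -/
def localSeq (c e : ℤ) : ℕ → ℤ
  | 0 => 1
  | 1 => c
  | r + 2 => c * localSeq c e (r + 1) - e * localSeq c e r

/-- The sequence multiplicative in `n` with the local sequences at the prime powers. -/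
def ofPrimes (c e : ℕ → ℤ) (n : ℕ) : ℤ :=
  if n = 0 then 0 else n.factorization.prod fun p k => localSeq (c p) (e p) k

theorem ofPrimes_mul {c e : ℕ → ℤ} {m n : ℕ} (hm : m ≠ 0) (hn : n ≠ 0) (h : m.Coprime n) :
    ofPrimes c e (m * n) = ofPrimes c e m * ofPrimes c e n := by
  simp only [ofPrimes, if_neg hm, if_neg hn, if_neg (mul_ne_zero hm hn),
    Nat.factorization_mul hm hn]
  exact Finsupp.prod_add_index_of_disjoint h.disjoint_primeFactors _

theorem ofPrimes_prime_pow {c e : ℕ → ℤ} {p : ℕ} (hp : p.Prime) (r : ℕ) :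
    ofPrimes c e (p ^ r) = localSeq (c p) (e p) r := by
  rw [ofPrimes, if_neg (pow_ne_zero r hp.ne_zero), hp.factorization_pow,
    Finsupp.prod_single_index]
  rfl

theorem ofPrimes_one (c e : ℕ → ℤ) : ofPrimes c e 1 = 1 := by
  simp [ofPrimes]

theorem ofPrimes_prime {c e : ℕ → ℤ} {p : ℕ} (hp : p.Prime) : ofPrimes c e p = c p := by
  simpa [localSeq] using ofPrimes_prime_pow (c := c) (e := e) hp 1

theorem isEigensystem_ofPrimes (c e : ℕ → ℤ) :
    FormalHecke.IsEigensystem e (ofPrimes c e) := by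
  refine ⟨ofPrimes_one c e, fun ℓ hℓ n => ?_⟩
  rcases eq_or_ne n 0 with rfl | hn
  · simp [ofPrimes]
  obtain ⟨r, m, hm, rfl⟩ := Nat.exists_eq_pow_mul_and_not_dvd hn ℓ hℓ.ne_one
  have hm0 : m ≠ 0 := fun h => hm (h ▸ dvd_zero ℓ)
  have hcop : ∀ k : ℕ, (ℓ ^ k).Coprime m := fun k => (hℓ.coprime_iff_not_dvd.2 hm).pow_left k
  have hpow : ∀ k : ℕ, ofPrimes c e (ℓ ^ k * m) = localSeq (c ℓ) (e ℓ) k * ofPrimes c e m :=
    fun k => by rw [ofPrimes_mul (pow_ne_zero k hℓ.ne_zero) hm0 (hcop k), ofPrimes_prime_pow hℓ]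
  rw [← mul_assoc, ← pow_succ', hpow, hpow, ofPrimes_prime hℓ]
  cases r with
  | zero => rw [pow_zero, one_mul, if_neg hm]; simp [localSeq]
  | succ r =>
    rw [pow_succ' ℓ r, mul_assoc, if_pos (dvd_mul_right _ _), Nat.mul_div_cancel_left _ hℓ.pos,
      hpow]
    simp only [localSeq]
    ring

end Fermat.Agent.Extra.Eigen
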